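import Fermat.Agent.S59.TW.Spec
import Fermat.Agent.S55.G.Rec.H63AuxField

/-!
# S59 / TW layer 2, leaf CYC (helper116)

`cycloSurj : CycloSurjStatement` — the inertia group of every place of `ℚ̄` over a prime `q`
surjects onto `(ℤ/q)ˣ` through the action on the `q`-th roots of unity.

Short adapter: total ramification of `ℚ(ζ_q)` at `q` is on main
(`S55.G.Rec.exists_inertia_cycloChar_eq63`), together with the surjectivity of the cyclotomic
character (`cycloChar_surjective63`) and its defining property (`S55.Bridge.cycloChar_spec`).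
-/

set_option autoImplicit false
set_option linter.style.haveILetI false

namespace Fermat.Agent.S59.TW.H116

open Fermat.Agent.S59.Arch Fermat.Agent.S59.TW

/-- **CYC.**  The inertia group at `q` surjects onto `(ℤ/q)ˣ`. -/
theorem cycloSurj : CycloSurjStatement := by
  intro q hq P hP a
  haveI : Fact q.Prime := ⟨hq⟩
  haveI : NeZero q := ⟨hq.ne_zero⟩
  obtain ⟨g, hg⟩ := Fermat.Agent.S55.G.Rec.cycloChar_surjective63 q a
  obtain ⟨σ, hσ, hσg⟩ := Fermat.Agent.S55.G.Rec.exists_inertia_cycloChar_eq63 q P hP g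
  refine ⟨σ, hσ, ?_⟩
  intro μ hμ
  have hμ0 : μ ≠ 0 := by
    intro h0
    rw [h0, zero_pow hq.ne_zero] at hμ
    exact zero_ne_one hμ
  have hmem : (Units.mk0 μ hμ0) ∈ rootsOfUnity q (AlgebraicClosure ℚ) := by
    rw [mem_rootsOfUnity]
    apply Units.ext
    simpa using hμ
  have h := Fermat.Agent.S55.Bridge.cycloChar_spec q σ hmem
  rw [hσg, hg] at h
  simpa using h

end Fermat.Agent.S59.TW.H116
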